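/-
S27, block A (model), interface between A1 (helper89: existence by Riemann-Roch) and
A2 (helper20: the plane model): two functions with a single pole, of orders `N` and `N + 1`.
-/
import Mathlib
import Fermat.Prelude.Def_AlgebraicCurve_CanonicalDivisor

set_option autoImplicit false

open AlgebraicCurve IntermediateField

namespace Fermat.Agent.S27

/-- `x` and `y` have `P0` as their only pole, of orders `N` and `N + 1`, and `[F : K(x)] = N`. -/
structure IsPoleData {K F : Type*} [Field K] [Field F] [Algebra K F] (N : ℕ) (P0 : Place K F)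
    (x y : F) : Prop where
  ord_x : P0.ord x = -(N : ℤ)
  ord_y : P0.ord y = -((N : ℤ) + 1)
  reg_x : ∀ v : Place K F, v ≠ P0 → 0 ≤ v.ord x
  reg_y : ∀ v : Place K F, v ≠ P0 → 0 ≤ v.ord y
  trans : Transcendental K x
  fin : FiniteDimensional K⟮x⟯ F
  rank : Module.finrank K⟮x⟯ F = N

end Fermat.Agent.S27
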