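/-
S27, block A1 (helper89): existence of two functions with a single pole `P0`, of orders
`N = 2g + 1` and `N + 1`, by Riemann-Roch; `[F : K(x)] = N`.
-/
import Mathlib
import Fermat.Agent.S27.Model.Defs
import Fermat.Agent.Lib.RR.Weil
import Fermat.Agent.Lib.RR.Hurwitz.Count
import Fermat.Agent.S24.Residue

set_option autoImplicit false
set_option linter.style.haveILetI false

open AlgebraicCurve IntermediateField

namespace Fermat.Agent.S27

open Fermat.Agent.RR

variable {K F : Type*} [Field K] [Field F] [Algebra K F]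

/-- **Riemann-Roch**: for `n ≥ 2g` there is a function with a pole of order exactly `n`
at `P0` and no other pole. -/
theorem exists_single_pole (h : IsRRField K F) (P0 : Place K F) {n : ℕ}
    (hg : 2 * genusFF K F ≤ n) :
    ∃ f : F, f ≠ 0 ∧ P0.ord f = -(n : ℤ) ∧ ∀ v : Place K F, v ≠ P0 → 0 ≤ v.ord f := by
  classical
  set D : Divisor K F := Finsupp.single P0 ((n : ℤ) - 1) with hD
  have hdeg : Divisor.degree D = (n : ℤ) - 1 := degree_single_one h P0 _
  have hdeg' : Divisor.degree (D + Finsupp.single P0 1) = (n : ℤ) := by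
    rw [degree_add_single h, hdeg]
    ring
  have h1 : (ell D : ℤ) = (n : ℤ) - 1 + 1 - (genusFF K F : ℤ) := by
    rw [← hdeg]
    exact ell_of_degree_gt h (by rw [hdeg]; omega)
  have h2 : (ell (D + Finsupp.single P0 1) : ℤ) = (n : ℤ) + 1 - (genusFF K F : ℤ) := by
    rw [← hdeg']
    exact ell_of_degree_gt h (by rw [hdeg']; omega)
  have h3 : ell (D + Finsupp.single P0 1) = ell D + 1 := by omega
  obtain ⟨f, hf, hfD⟩ := (ell_add_single_eq_iff h D P0).mp h3
  obtain ⟨hf0, hord⟩ := ord_eq_of_mem_add_single_of_not_mem hf hfD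
  refine ⟨f, hf0, ?_, fun v hv => ?_⟩
  · rw [hord, hD, Finsupp.single_eq_same]
    ring
  · have h4 := ((mem_riemannRochSpace_iff.mp hf) v).resolve_left hf0
    rw [Finsupp.add_apply, hD, Finsupp.single_apply, Finsupp.single_apply, if_neg (Ne.symm hv),
      if_neg (Ne.symm hv), add_zero, neg_zero] at h4
    exact h4

/-- the pole divisor of a function with a single pole -/
theorem poleDiv_eq_single (h : IsRRField K F) (P0 : Place K F) {n : ℕ} {f : F}
    (hord : P0.ord f = -(n : ℤ)) (hreg : ∀ v : Place K F, v ≠ P0 → 0 ≤ v.ord f) :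
    poleDiv h f = Finsupp.single P0 (n : ℤ) := by
  classical
  ext v
  rw [poleDiv_apply, Finsupp.single_apply]
  by_cases hv : v = P0
  · subst hv
    rw [if_pos rfl, hord, neg_neg]
    exact max_eq_left (Int.natCast_nonneg n)
  · rw [if_neg (Ne.symm hv)]
    have := hreg v hv
    exact max_eq_right (by omega)

/-- **A1**: the pole data of the model. -/
theorem exists_isPoleData [IsAlgClosed K] (h : IsRRField K F) :
    ∃ (P0 : Place K F) (x y : F), IsPoleData (2 * genusFF K F + 1) P0 x y := by
  obtain ⟨P0⟩ := nonempty_place h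
  set N := 2 * genusFF K F + 1 with hN
  obtain ⟨x, hx0, hxP, hxreg⟩ := exists_single_pole h P0 (n := N) (by omega)
  obtain ⟨y, hy0, hyP, hyreg⟩ := exists_single_pole h P0 (n := N + 1) (by omega)
  have hxt : Transcendental K x :=
    Fermat.Agent.S24Res.transcendental_of_ord_ne_zero P0 (by rw [hxP]; omega)
  obtain ⟨x₀, hx₀t, hx₀f, -⟩ := h.exists_x
  have hfin : FiniteDimensional K⟮x⟯ F :=
    Fermat.Agent.S24Res.finiteDimensional_adjoin_simple (x := x₀) ⟨hx₀t, hx₀f⟩ hxt
  refine ⟨P0, x, y, hxP, ?_, hxreg, hyreg, hxt, hfin, ?_⟩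
  · rw [hyP]
    push_cast
    ring
  · have h1 := Fermat.Agent.RRHur.degree_poleDiv_eq_finrank h hxt
    rw [poleDiv_eq_single h P0 hxP hxreg, degree_single_one h] at h1
    exact_mod_cast h1.symm

end Fermat.Agent.S27
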