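/-
S27, block A2 (helper20): the PLANE MODEL of a function field from two functions with a single
pole `P0` of orders `N` and `N + 1` (`IsPoleData`, block A1 by helper89).

* `pm_max_twice` : in a vanishing finite sum the maximal valuation is attained at least twice.
* `pm_exists_pair` : in a vanishing sum `∑ p_b(x) y^b` two distinct nonzero terms have the same
  (maximal) weight `N deg p_b + (N + 1) b`.
* `exists_planeModel_of_isPoleData` : the minimal polynomial of `y` over `K[x]` is a plane model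
  (`y` is integral over `K[x]` since it has no pole outside `P0`; its degree is `N`; the degree
  bounds follow from the weights).
* `nonempty_planeModel` : every function field over an algebraically closed field of
  characteristic `0` has a plane model.
-/
import Mathlib
import Fermat.Agent.S27.Model.Defs
import Fermat.Agent.S27.Model.Pole
import Fermat.Agent.S27.Red.Defs
import Fermat.Agent.Lib.RR.Hurwitz.LocalTrace

set_option autoImplicit false
set_option linter.style.haveILetI false

noncomputable section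

open AlgebraicCurve IntermediateField Polynomial WithZero
open scoped IntermediateField.algebraAdjoinAdjoin

namespace Fermat.Agent.S27

open Fermat.Agent.RR Fermat.Agent.RRHur

variable {K F : Type*} [Field K] [Field F] [Algebra K F]

/-- In a vanishing finite sum, the maximal valuation is attained at least twice. -/
theorem pm_max_twice {Γ : Type*} [LinearOrderedCommGroupWithZero Γ] (v : Valuation F Γ)
    {ι : Type*} [DecidableEq ι] (s : Finset ι) (g : ι → F) (hsum : ∑ i ∈ s, g i = 0)
    (i₀ : ι) (hi₀ : i₀ ∈ s) (h0 : g i₀ ≠ 0) (hmax : ∀ i ∈ s, v (g i) ≤ v (g i₀)) :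
    ∃ j ∈ s, j ≠ i₀ ∧ v (g j) = v (g i₀) := by
  by_contra hcon
  push Not at hcon
  have hlt : ∀ j ∈ s.erase i₀, v (g j) < v (g i₀) := by
    intro j hj
    rw [Finset.mem_erase] at hj
    exact lt_of_le_of_ne (hmax j hj.2) (hcon j hj.2 hj.1)
  have hv0 : v (g i₀) ≠ 0 := (Valuation.ne_zero_iff v).mpr h0
  have h1 : v (∑ j ∈ s.erase i₀, g j) < v (g i₀) := Valuation.map_sum_lt v hv0 hlt
  have h2 : g i₀ = -∑ j ∈ s.erase i₀, g j := by
    rw [← Finset.add_sum_erase s g hi₀] at hsum
    exact eq_neg_of_add_eq_zero_left hsum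
  have h3 : v (g i₀) = v (∑ j ∈ s.erase i₀, g j) := by
    conv_lhs => rw [h2]
    exact Valuation.map_neg v _
  rw [← h3] at h1
  exact lt_irrefl _ h1

/-- arithmetic of the weights `(N, N + 1)`. -/
theorem pm_arith {N di dj i j : ℕ} (hN : 0 < N)
    (h : N * di + (N + 1) * i = N * dj + (N + 1) * j) (hi : i ≤ N) (hj : j ≤ N) (hij : i ≠ j) :
    (i = 0 ∧ j = N) ∨ (i = N ∧ j = 0) := by
  have hZ : (N : ℤ) * di + ((N : ℤ) + 1) * i = (N : ℤ) * dj + ((N : ℤ) + 1) * j := by
    exact_mod_cast h
  have hk : (i : ℤ) - j = N * ((dj : ℤ) - di - i + j) := by linear_combination hZ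
  set k : ℤ := (dj : ℤ) - di - i + j with hkdef
  have hN' : (0 : ℤ) < N := by exact_mod_cast hN
  have hi' : (i : ℤ) ≤ N := by exact_mod_cast hi
  have hj' : (j : ℤ) ≤ N := by exact_mod_cast hj
  have hi0 : (0 : ℤ) ≤ i := Int.natCast_nonneg i
  have hj0 : (0 : ℤ) ≤ j := Int.natCast_nonneg j
  have hij' : (i : ℤ) ≠ j := by exact_mod_cast hij
  rcases lt_trichotomy k 0 with hneg | hzero | hpos
  · left
    have h1 : (N : ℤ) * k ≤ -N := by nlinarith
    have h2 : (i : ℤ) = 0 := by linarith
    have h3 : (j : ℤ) = N := by linarith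
    exact ⟨by exact_mod_cast h2, by exact_mod_cast h3⟩
  · exfalso
    rw [hzero, mul_zero] at hk
    exact hij' (by linarith)
  · right
    have h1 : (N : ℤ) ≤ N * k := by nlinarith
    have h2 : (j : ℤ) = 0 := by linarith
    have h3 : (i : ℤ) = N := by linarith
    exact ⟨by exact_mod_cast h3, by exact_mod_cast h2⟩

section Weights

variable {N : ℕ} {P0 : Place K F} {x y : F}

theorem pm_val_x (hD : IsPoleData N P0 x y) : P0.adicValuation x = exp (N : ℤ) := by
  have hx0 : x ≠ 0 := fun h => hD.trans (h ▸ isAlgebraic_zero)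
  rw [P0.adicValuation_eq_exp_neg_ord hx0, hD.ord_x, neg_neg]

theorem pm_val_y (hD : IsPoleData N P0 x y) : P0.adicValuation y = exp ((N : ℤ) + 1) := by
  have hy0 : y ≠ 0 := by
    rintro rfl
    have h := hD.ord_y
    rw [Place.ord_zero] at h
    omega
  rw [P0.adicValuation_eq_exp_neg_ord hy0, hD.ord_y, neg_neg]

theorem pm_one_lt_val_x (hN : 0 < N) (hD : IsPoleData N P0 x y) : 1 < P0.adicValuation x := by
  rw [pm_val_x hD, ← exp_zero, exp_lt_exp]
  exact_mod_cast hN

/-- the valuation at `P0` of a term `p(x) y^b` is given by its weight. -/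
theorem pm_val_term (hN : 0 < N) (hD : IsPoleData N P0 x y) {p : K[X]} (hp : p ≠ 0) (b : ℕ) :
    P0.adicValuation (aeval x p * y ^ b) =
      exp (((N * p.natDegree + (N + 1) * b : ℕ) : ℤ)) := by
  rw [map_mul, map_pow, adicValuation_aeval_eq P0 (pm_one_lt_val_x hN hD) hp, pm_val_x hD,
    pm_val_y hD, ← exp_nsmul, ← exp_nsmul, ← exp_add, exp_inj]
  push_cast
  simp only [nsmul_eq_mul]
  ring

/-- In a vanishing sum `∑ p_b(x) y^b`, two distinct nonzero terms have the same weight, which is
the maximal weight. -/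
theorem pm_exists_pair (hN : 0 < N) (hD : IsPoleData N P0 x y) (s : Finset ℕ) (p : ℕ → K[X])
    (hsum : ∑ b ∈ s, aeval x (p b) * y ^ b = 0) (hne : ∃ b ∈ s, p b ≠ 0) :
    ∃ i ∈ s, ∃ j ∈ s, i ≠ j ∧ p i ≠ 0 ∧ p j ≠ 0 ∧
      N * (p i).natDegree + (N + 1) * i = N * (p j).natDegree + (N + 1) * j ∧
      ∀ b ∈ s, p b ≠ 0 →
        N * (p b).natDegree + (N + 1) * b ≤ N * (p i).natDegree + (N + 1) * i := by
  classical
  set s' : Finset ℕ := s.filter (fun b => p b ≠ 0) with hs'
  have hs'ne : s'.Nonempty := by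
    obtain ⟨b, hb, hpb⟩ := hne
    exact ⟨b, Finset.mem_filter.mpr ⟨hb, hpb⟩⟩
  obtain ⟨i₀, hi₀, hmax⟩ := Finset.exists_max_image s'
    (fun b => N * (p b).natDegree + (N + 1) * b) hs'ne
  obtain ⟨hi₀s, hpi₀⟩ := Finset.mem_filter.mp hi₀
  set g : ℕ → F := fun b => aeval x (p b) * y ^ b with hg
  have hval : ∀ b, p b ≠ 0 → P0.adicValuation (g b) =
      exp (((N * (p b).natDegree + (N + 1) * b : ℕ) : ℤ)) := fun b hb => pm_val_term hN hD hb b
  have hg0 : g i₀ ≠ 0 := by
    intro h0
    have h1 := hval i₀ hpi₀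
    rw [h0, map_zero] at h1
    exact exp_ne_zero h1.symm
  have hmax' : ∀ b ∈ s, P0.adicValuation (g b) ≤ P0.adicValuation (g i₀) := by
    intro b hb
    by_cases hpb : p b = 0
    · have : g b = 0 := by simp [hg, hpb]
      rw [this, map_zero]
      exact zero_le
    · rw [hval b hpb, hval i₀ hpi₀, exp_le_exp]
      exact_mod_cast hmax b (Finset.mem_filter.mpr ⟨hb, hpb⟩)
  obtain ⟨j, hjs, hji, hvj⟩ := pm_max_twice P0.adicValuation s g hsum i₀ hi₀s hg0 hmax'
  have hpj : p j ≠ 0 := by
    intro hpj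
    have : g j = 0 := by simp [hg, hpj]
    rw [this, map_zero, hval i₀ hpi₀] at hvj
    exact exp_ne_zero hvj.symm
  refine ⟨i₀, hi₀s, j, hjs, fun h => hji h.symm, hpi₀, hpj, ?_, ?_⟩
  · rw [hval j hpj, hval i₀ hpi₀, exp_inj] at hvj
    exact_mod_cast hvj.symm
  · intro b hb hpb
    exact hmax b (Finset.mem_filter.mpr ⟨hb, hpb⟩)

end Weights

/-- the surjection `K[X] → K[x]`. -/
def pmPhi (x : F) : K[X] →+* Algebra.adjoin K {x} :=
  ((Polynomial.aeval x : K[X] →ₐ[K] F).codRestrict (Algebra.adjoin K {x})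
    (fun _ => Polynomial.aeval_mem_adjoin_singleton K x)).toRingHom

theorem pmPhi_coe (x : F) (p : K[X]) : ((pmPhi x p : Algebra.adjoin K {x}) : F) = aeval x p :=
  rfl

theorem pmPhi_surjective (x : F) : Function.Surjective (pmPhi (K := K) x) := by
  intro a
  have ha : (a : F) ∈ (Polynomial.aeval x : K[X] →ₐ[K] F).range := by
    rw [← Algebra.adjoin_singleton_eq_range_aeval]
    exact a.2
  obtain ⟨p, hp⟩ := ha
  exact ⟨p, Subtype.ext hp⟩

theorem pmEv_eq_sum (x y : F) (f : K[X][X]) :
    pmEv x y f = ∑ b ∈ Finset.range (f.natDegree + 1), aeval x (f.coeff b) * y ^ b := by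
  unfold pmEv
  rw [Polynomial.coe_eval₂RingHom, Polynomial.eval₂_eq_sum_range]
  rfl

/-- **A2**: the plane model attached to pole data. -/
theorem exists_planeModel_of_isPoleData [CharZero K] {N : ℕ} (hN : 0 < N) {P0 : Place K F}
    {x y : F} (hD : IsPoleData N P0 x y) :
    ∃ M : PlaneModel K F, M.N = N ∧ M.x = x ∧ M.y = y := by
  classical
  haveI := hD.fin
  haveI : CharZero K⟮x⟯ := charZero_of_injective_algebraMap (algebraMap K K⟮x⟯).injective
  haveI : Algebra.IsSeparable K⟮x⟯ F := inferInstance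
  -- integrality of `y`
  have hint : IsIntegral (Algebra.adjoin K {x}) y := by
    have h := mem_integralClosure_of_forall_mem hD.trans y (fun Q hQ => by
      apply Fermat.Agent.S24Res.mem_of_ord_nonneg Q
      apply hD.reg_y Q
      rintro rfl
      rw [hD.ord_x] at hQ
      have : (0 : ℤ) < N := by exact_mod_cast hN
      omega)
    exact h
  haveI : IsIntegrallyClosed (Algebra.adjoin K {x}) := by
    haveI := isDedekindDomain_adjoin hD.trans
    infer_instance
  set g : (Algebra.adjoin K {x})[X] := minpoly (Algebra.adjoin K {x}) y with hg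
  have hg_monic : g.Monic := minpoly.monic hint
  have hg_root : Polynomial.aeval y g = 0 := minpoly.aeval _ y
  have hg_eq : minpoly K⟮x⟯ y = g.map (algebraMap (Algebra.adjoin K {x}) K⟮x⟯) :=
    minpoly.isIntegrallyClosed_eq_field_fractions' K⟮x⟯ hint
  have hg_deg : g.natDegree = (minpoly K⟮x⟯ y).natDegree := by
    rw [hg_eq, hg_monic.natDegree_map]
  have hg_le : g.natDegree ≤ N := by
    rw [hg_deg, ← hD.rank]
    exact minpoly.natDegree_le y
  -- the lift to `K[X][Y]`
  obtain ⟨f, hfmap, hfdeg, hfmonic⟩ := Polynomial.lifts_and_degree_eq_and_monic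
    ((Polynomial.mem_lifts g).mpr (Polynomial.map_surjective _ (pmPhi_surjective x) g)) hg_monic
  have hfnat : f.natDegree = g.natDegree := Polynomial.natDegree_eq_of_degree_eq hfdeg
  have hroot : pmEv x y f = 0 := by
    have h1 : pmEv x y f = Polynomial.aeval y (f.map (pmPhi x)) := by
      unfold pmEv
      rw [Polynomial.coe_eval₂RingHom, Polynomial.aeval_def, Polynomial.eval₂_map]
      rfl
    rw [h1, hfmap]
    exact hg_root
  have hsum : ∑ b ∈ Finset.range (f.natDegree + 1), aeval x (f.coeff b) * y ^ b = 0 := by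
    rw [← pmEv_eq_sum]
    exact hroot
  have hlead : f.coeff f.natDegree = 1 := hfmonic.coeff_natDegree
  obtain ⟨i, hi, j, hj, hij, hpi, hpj, hwt, hmax⟩ := pm_exists_pair hN hD
    (Finset.range (f.natDegree + 1)) (fun b => f.coeff b) hsum
    ⟨f.natDegree, Finset.mem_range.mpr (Nat.lt_succ_self _), by
      show f.coeff f.natDegree ≠ 0
      rw [hlead]
      exact one_ne_zero⟩
  have hi' : i ≤ f.natDegree := Nat.lt_succ_iff.mp (Finset.mem_range.mp hi)
  have hj' : j ≤ f.natDegree := Nat.lt_succ_iff.mp (Finset.mem_range.mp hj)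
  have hfle : f.natDegree ≤ N := hfnat ▸ hg_le
  have hcases := pm_arith hN hwt (hi'.trans hfle) (hj'.trans hfle) hij
  have hfN : f.natDegree = N := by
    rcases hcases with ⟨-, h⟩ | ⟨h, -⟩
    · exact le_antisymm hfle (h ▸ hj')
    · exact le_antisymm hfle (h ▸ hi')
  have hleadN : f.coeff N = 1 := hfN ▸ hlead
  -- the maximal weight is `(N + 1) N`, attained at `b = 0` and `b = N`
  have hwmax : N * (f.coeff i).natDegree + (N + 1) * i = (N + 1) * N := by
    rcases hcases with ⟨-, h⟩ | ⟨h, -⟩
    · rw [hwt, h, hleadN]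
      simp
    · rw [h, hleadN]
      simp
  have hw0 : N * (f.coeff 0).natDegree = (N + 1) * N := by
    rcases hcases with ⟨h, -⟩ | ⟨-, h⟩
    · rw [h] at hwmax
      simpa using hwmax
    · rw [hwt, h] at hwmax
      simpa using hwmax
  have hc0 : f.coeff 0 ≠ 0 := by
    rcases hcases with ⟨h, -⟩ | ⟨-, h⟩
    · exact h ▸ hpi
    · exact h ▸ hpj
  have hdeg0 : (f.coeff 0).natDegree = N + 1 := by
    have h1 : N * (f.coeff 0).natDegree = N * (N + 1) := by rw [hw0, mul_comm]
    exact Nat.eq_of_mul_eq_mul_left hN h1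
  have hgen : IntermediateField.adjoin K {x, y} = ⊤ := by
    have hinty : IsIntegral K⟮x⟯ y := IsIntegral.of_finite K⟮x⟯ y
    have h1 : Module.finrank K⟮x⟯ K⟮x⟯⟮y⟯ = Module.finrank K⟮x⟯ F := by
      rw [IntermediateField.adjoin.finrank hinty, ← hg_deg, ← hfnat, hfN, hD.rank]
    have h2 : K⟮x⟯⟮y⟯ = ⊤ := by
      apply IntermediateField.eq_of_le_of_finrank_eq le_top
      rw [h1, IntermediateField.finrank_top']
    rw [← IntermediateField.adjoin_simple_adjoin_simple, h2]
    rfl
  refine ⟨{
    N := N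
    hN := hN
    x := x
    y := y
    f := f
    c := -(f.coeff 0).coeff (N + 1)
    hc := ?_
    monic := hfmonic
    natDegree_f := hfN
    deg_mid := ?_
    deg_zero := hdeg0.le
    top := by rw [neg_neg]
    root := hroot
    x_trans := hD.trans
    deg := hD.rank
    gen := hgen }, rfl, rfl, rfl⟩
  · rw [neg_ne_zero, ← hdeg0]
    exact Polynomial.leadingCoeff_ne_zero.mpr hc0
  · intro b hb0 hbN
    by_cases hpb : f.coeff b = 0
    · rw [hpb, Polynomial.natDegree_zero]
      exact Nat.zero_le _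
    · have h1 := hmax b (Finset.mem_range.mpr (by omega)) hpb
      rw [hwmax] at h1
      by_contra hcon
      push Not at hcon
      have h2 : N - b + 1 ≤ (f.coeff b).natDegree := hcon
      have h3 : N * (N - b + 1) ≤ N * (f.coeff b).natDegree := Nat.mul_le_mul_left N h2
      have h4 : N * (N - b + 1) + (N + 1) * b = N * N + N + b := by
        obtain ⟨d, rfl⟩ : ∃ d, N = b + d := ⟨N - b, by omega⟩
        rw [Nat.add_sub_cancel_left]
        ring
      have h5 : (N + 1) * N = N * N + N := by ring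
      omega

/-- **Block A**: every function field over an algebraically closed field of characteristic `0`
has a plane model of degree `N = 2g + 1` with one place at infinity. -/
theorem nonempty_planeModel [IsAlgClosed K] [CharZero K] (h : IsRRField K F) :
    ∃ M : PlaneModel K F, M.N = 2 * genusFF K F + 1 := by
  obtain ⟨P0, x, y, hD⟩ := exists_isPoleData h
  obtain ⟨M, hM, -, -⟩ := exists_planeModel_of_isPoleData (by omega) hD
  exact ⟨M, hM⟩

end Fermat.Agent.S27
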