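/-
S27, block A, part 0 (helper89): the bridge from the hypotheses of the frozen statement
(`IsCurveOver K F`, `Algebra.EssFiniteType K F`, `K` of characteristic zero) to the standing
hypothesis of the Riemann-Roch library (`Fermat.Agent.RR.IsRRField K F`).

* `exists_basis_kaehler` : for a finite algebraically independent family `s` with `F` separable
  over `K(s)`, `Ω[F/K]` is free with a basis indexed by `s`;
* `exists_isFunctionFieldOver` : `rank Ω[F/K] = 1` forces transcendence degree one: there is `x`
  transcendental over `K` with `F` finite over `K(x)`;
* `isRRField` : `IsRRField K F`.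
-/
import Mathlib
import Fermat.Prelude.Def_AlgebraicCurve_IsCurveOver
import Fermat.Agent.Lib.RR.OfSep

set_option autoImplicit false
set_option linter.style.haveILetI false

noncomputable section

open AlgebraicCurve IntermediateField KaehlerDifferential

namespace Fermat.Agent.S27

section Kaehler

variable (K F : Type*) [Field K] [Field F] [Algebra K F]

open scoped IntermediateField.algebraAdjoinAdjoin in
/-- `Ω[F/K]` has a basis indexed by a separating transcendence basis. -/
theorem exists_basis_kaehler (s : Finset F) (hs : AlgebraicIndependent K ((↑) : s → F))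
    [Algebra.IsSeparable (IntermediateField.adjoin K (s : Set F)) F] :
    Nonempty (Module.Basis s F Ω[F⁄K]) := by
  classical
  have hrange : Set.range ((↑) : s → F) = (s : Set F) := by
    ext x
    simp
  let A := Algebra.adjoin K (Set.range ((↑) : s → F))
  let E := IntermediateField.adjoin K (Set.range ((↑) : s → F))
  haveI : Algebra.IsSeparable E F := by
    have h : E = IntermediateField.adjoin K (s : Set F) := by
      show IntermediateField.adjoin K (Set.range ((↑) : s → F)) = _
      rw [hrange]
    exact h ▸ (inferInstance : Algebra.IsSeparable (IntermediateField.adjoin K (s : Set F)) F)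
  haveI : Algebra.FormallyEtale E F := Algebra.FormallyEtale.of_isSeparable E F
  haveI : Algebra.FormallyEtale A E := Algebra.FormallyEtale.of_isLocalization (nonZeroDivisors A)
  haveI : Algebra.FormallyEtale A F := Algebra.FormallyEtale.comp A E F
  -- `F` as an algebra over the polynomial ring
  let P := MvPolynomial s K
  let e : P ≃ₐ[K] A := hs.aevalEquiv
  letI : Algebra P A := e.toAlgHom.toRingHom.toAlgebra
  haveI : IsScalarTower K P A := IsScalarTower.of_algebraMap_eq fun c => (e.commutes c).symm
  haveI : Algebra.FormallyEtale P A :=
    Algebra.FormallyEtale.of_equiv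
      (AlgEquiv.ofRingEquiv (f := e.toRingEquiv) (fun _ => rfl) : P ≃ₐ[P] A)
  letI : Algebra P F := ((algebraMap A F).comp (algebraMap P A)).toAlgebra
  haveI : IsScalarTower P A F := IsScalarTower.of_algebraMap_eq fun _ => rfl
  haveI : IsScalarTower K P F := IsScalarTower.of_algebraMap_eq fun c => by
    show algebraMap K F c = algebraMap A F (algebraMap P A (algebraMap K P c))
    rw [← IsScalarTower.algebraMap_apply K P A, ← IsScalarTower.algebraMap_apply K A F]
  haveI : Algebra.FormallyEtale P F := Algebra.FormallyEtale.comp P A F
  have hbc : IsBaseChange F (KaehlerDifferential.map K K P F) :=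
    KaehlerDifferential.isBaseChange_of_formallyEtale K P F
  exact ⟨((KaehlerDifferential.mvPolynomialBasis K s).baseChange F).map hbc.equiv⟩

/-- the rank of `Ω[F/K]` is the cardinality of a separating transcendence basis. -/
theorem finrank_kaehler_eq_card (s : Finset F) (hs : AlgebraicIndependent K ((↑) : s → F))
    [Algebra.IsSeparable (IntermediateField.adjoin K (s : Set F)) F] :
    Module.finrank F Ω[F⁄K] = s.card := by
  obtain ⟨b⟩ := exists_basis_kaehler K F s hs
  rw [Module.finrank_eq_card_basis b, Fintype.card_coe]

end Kaehler

section Curve

variable (K F : Type*) [Field K] [Field F] [Algebra K F]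

/-- **bridge, part 1**: a curve in the sense of the Prelude (`Ω[F/K]` free of rank one), finitely
generated over a field of characteristic zero, is a function field in one variable. -/
theorem exists_isFunctionFieldOver [CharZero K] [IsCurveOver K F] [Algebra.EssFiniteType K F] :
    ∃ x : F, Fermat.Agent.S24Diff.IsFunctionFieldOver K F x := by
  classical
  obtain ⟨s, hs, hsep⟩ := exists_isTranscendenceBasis_and_isSeparable_of_perfectField K F
  have hcard : s.card = 1 := by
    rw [← finrank_kaehler_eq_card K F s hs.1]
    exact IsCurveOver.finrank_kaehler
  obtain ⟨x, rfl⟩ := Finset.card_eq_one.mp hcard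
  have hx : Transcendental K x := by
    have h := hs.1.transcendental ⟨x, Finset.mem_singleton_self x⟩
    simpa using h
  have hE : IntermediateField.adjoin K (({x} : Finset F) : Set F) = K⟮x⟯ := by
    rw [Finset.coe_singleton]
  haveI : Algebra.IsSeparable K⟮x⟯ F := hE ▸ hsep
  haveI : Algebra.EssFiniteType K⟮x⟯ F := Algebra.EssFiniteType.of_comp K K⟮x⟯ F
  exact ⟨x, hx, Algebra.finite_of_essFiniteType_of_isAlgebraic⟩

/-- **bridge, part 2**: the standing hypothesis of the Riemann-Roch library. -/
theorem isRRField [IsAlgClosed K] [CharZero K] [IsCurveOver K F] [Algebra.EssFiniteType K F] :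
    Fermat.Agent.RR.IsRRField K F := by
  obtain ⟨x, hx⟩ := exists_isFunctionFieldOver K F
  exact Fermat.Agent.RR.isRRField_of_charZero hx

end Curve

end Fermat.Agent.S27

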